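import Fermat.Agent.S59.NMP.Spec
import Fermat.Agent.S59.H686.ResidualDict

/-!
# Row S59, cell NMP — leaf RED-T (helper968)

`redT : NMP.RedTStatement` (VERBATIM): a deformation condition satisfied by a representation `ρ`
over a complete Noetherian local `𝒪`-algebra `T` with residue field `k(𝒪)` is satisfied by (any
model of) its residual representation.

Proof: the hypothesis `_hT` makes `ι = ResidueField.map (algebraMap 𝒪 T) : k(𝒪) → k(T)` bijective;
`f = ι⁻¹ ∘ residue T : T →ₐ[𝒪] k(𝒪)` is a surjective local `𝒪`-algebra map onto an Artinian test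
algebra, so `𝒟 (ρ ⊗_f k(𝒪))` by `iff_forall_surjective`; the matrix dictionary `S53/Dict`
identifies `ρ ⊗_f k(𝒪)` with `ρ̄` (conjugate the residual equivalence back along `ι⁻¹`).
-/

set_option autoImplicit false

open IsLocalRing

namespace Fermat.Agent.S59.NMP.H968

open Fermat.Agent.S53 Fermat.Agent.S59.H686

/-- Transport of a conjugacy of matrix representations along a ring homomorphism. -/
theorem conj_mapRep_h968 {A B : Type} [CommRing A] [CommRing B] (ψ : A →+* B)
    (r r' : GQ →* M2 A) (P : (M2 A)ˣ) (hP : ∀ σ, (P : M2 A) * r σ = r' σ * P) :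
    ∃ Q : (M2 B)ˣ, ∀ σ, (Q : M2 B) * mapRep ψ r σ = mapRep ψ r' σ * Q := by
  refine ⟨Units.map ψ.mapMatrix.toMonoidHom P, fun σ => ?_⟩
  show ψ.mapMatrix (P : M2 A) * ψ.mapMatrix (r σ) = ψ.mapMatrix (r' σ) * ψ.mapMatrix (P : M2 A)
  rw [← map_mul, ← map_mul, hP σ]

/-- **RED-T.** -/
theorem redT : RedTStatement := by
  intro 𝒪 _ _ _ _ 𝒟 h𝒟 T _ _ _ _ _ hloc hT ρ ρbar hres hD
  -- the map of residue fields is bijective
  have hιsurj : Function.Surjective (ResidueField.map (algebraMap 𝒪 T)) := by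
    intro y
    obtain ⟨a, ha⟩ := hT y
    exact ⟨residue 𝒪 a, by rw [ResidueField.map_residue]; exact ha⟩
  have hιbij : Function.Bijective (ResidueField.map (algebraMap 𝒪 T)) :=
    ⟨(ResidueField.map (algebraMap 𝒪 T)).injective, hιsurj⟩
  let e : ResidueField 𝒪 ≃+* ResidueField T :=
    RingEquiv.ofBijective (ResidueField.map (algebraMap 𝒪 T)) hιbij
  have he : ∀ x, e x = ResidueField.map (algebraMap 𝒪 T) x := fun _ => rfl
  have hesymm : ∀ x, e.symm (ResidueField.map (algebraMap 𝒪 T) x) = x := fun x => by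
    rw [← he, RingEquiv.symm_apply_apply]
  -- the `𝒪`-algebra map `T → k(𝒪)`
  let f0 : T →+* ResidueField 𝒪 := (e.symm : ResidueField T →+* ResidueField 𝒪).comp (residue T)
  have hf0 : ∀ t, f0 t = e.symm (residue T t) := fun _ => rfl
  let f : T →ₐ[𝒪] ResidueField 𝒪 :=
    { f0 with
      commutes' := fun a => by
        show f0 (algebraMap 𝒪 T a) = algebraMap 𝒪 (ResidueField 𝒪) a
        rw [hf0, ← ResidueField.map_residue, hesymm]
        rfl }
  have hff0 : (f : T →+* ResidueField 𝒪) = f0 := rfl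
  have hf : IsLocalHom (f : T →+* ResidueField 𝒪) := by
    refine ⟨fun t ht => ?_⟩
    rw [hff0] at ht
    have h1 : f0 t ≠ 0 := ht.ne_zero
    rw [hf0] at h1
    have h2 : residue T t ≠ 0 := fun h0 => h1 (by rw [h0, map_zero])
    rw [Ne, residue_eq_zero_iff, mem_maximalIdeal, mem_nonunits_iff, not_not] at h2
    exact h2
  have hfsurj : Function.Surjective f := by
    intro y
    obtain ⟨t, ht⟩ := residue_surjective (R := T) (e y)
    refine ⟨t, ?_⟩
    show f0 t = y
    rw [hf0, ht, RingEquiv.symm_apply_apply]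
  have hTest := isArtinianTestAlgebra_residueField 𝒪
  have h1 := (h𝒟.iff_forall_surjective hloc hT ρ).1 hD hTest f hf hfsurj
  refine h𝒟.of_isEquiv hTest ?_ h1
  -- the matrix dictionary
  obtain ⟨r, hr, ⟨e0⟩⟩ := exists_toAdic ρ
  obtain ⟨e1⟩ := baseChangeAlong_toAdic (f : T →+* ResidueField 𝒪) hf r hr
  have hfac : GaloisFactorsThroughFiniteLevel (mapRep f0 r) :=
    factors_mapRep (e.symm : ResidueField T →+* ResidueField 𝒪) hr.factors_residue
  obtain ⟨e2⟩ := toAdic_isEquiv_ofResidual_toRes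
    (mapRep (f : T →+* ResidueField 𝒪) r) (mapRep f0 r) (hr.map _ hf) hfac rfl
  -- the residual side
  obtain ⟨rb, hrb, ⟨e5⟩⟩ := exists_toRes ρbar
  obtain ⟨e4⟩ := hres
  obtain ⟨e6⟩ := residual_toAdic r hr
  obtain ⟨e7⟩ := baseChangeAlong_toRes (ResidueField.map (algebraMap 𝒪 T)) rb hrb
  have h8 : (toRes (mapRep (residue T) r) hr.factors_residue).IsEquiv
      (toRes (mapRep (ResidueField.map (algebraMap 𝒪 T)) rb)
        (factors_mapRep (ResidueField.map (algebraMap 𝒪 T)) hrb)) :=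
    ⟨e6.symm.trans (e0.residual.symm.trans (e4.trans ((e5.baseChangeAlong _).trans e7)))⟩
  rw [toRes_isEquiv_iff] at h8
  obtain ⟨P, hP⟩ := h8
  obtain ⟨Q, hQ⟩ := conj_mapRep_h968 (e.symm : ResidueField T →+* ResidueField 𝒪) _ _ P hP
  have h9 : mapRep (e.symm : ResidueField T →+* ResidueField 𝒪)
      (mapRep (ResidueField.map (algebraMap 𝒪 T)) rb) = rb := by
    rw [mapRep_comp]
    have hid : (e.symm : ResidueField T →+* ResidueField 𝒪).comp
        (ResidueField.map (algebraMap 𝒪 T)) = RingHom.id (ResidueField 𝒪) :=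
      RingHom.ext fun x => hesymm x
    rw [hid, mapRep_id]
  have h10 : mapRep (e.symm : ResidueField T →+* ResidueField 𝒪) (mapRep (residue T) r) =
      mapRep f0 r := mapRep_comp _ _ _
  rw [h9, h10] at hQ
  have h11 : (toRes (mapRep f0 r) hfac).IsEquiv (toRes rb hrb) :=
    (toRes_isEquiv_iff _ _ hfac hrb).2 ⟨Q, hQ⟩
  obtain ⟨e11⟩ := h11
  exact ⟨((e0.baseChangeAlong _ hf).trans e1).trans
    (e2.trans (ofResidualEquiv (e11.trans e5.symm)))⟩

end Fermat.Agent.S59.NMP.H968
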